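import Fermat.Agent.MU.F4.Datum
import Fermat.Agent.MU.F4.PT.Defs
import Fermat.Agent.MU.F4.BR.LevelsBridge
import Fermat.Agent.MU.F4.BR.Smooth

section MergeWrap_F4_BR_Arch -- from F4/BR/Arch.lean

/-!
# F4 / BR / Arch : the archimedean place is invisible for `p` odd

`archimedeanDecomposition = ⟨complex conjugation⟩` has order `≤ 2`; for a module killed by an odd
prime its `H¹` and (level-constant) `H²` vanish (`2 x = 0` and `p x = 0`).  Hence the archimedean
local conditions in `sha₁`, `sha₂` are automatic.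
-/

set_option autoImplicit false

open CategoryTheory groupCohomology ExtCitation

namespace Fermat.Agent.F4

variable {p : ℕ} [Fact p.Prime]

/-- every element of the archimedean decomposition group is `1` or the generator -/
lemma arch_eq_one_or (g : archimedeanDecomposition) : g = 1 ∨ g = archimedeanGen := by
  obtain ⟨g, hg⟩ := g
  obtain ⟨k, rfl⟩ := Subgroup.mem_zpowers_iff.1 hg
  rcases Int.even_or_odd k with ⟨m, rfl⟩ | ⟨m, rfl⟩
  · left
    apply Subtype.ext
    show complexConjugation ^ (m + m) = 1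
    rw [← two_mul, zpow_mul, zpow_ofNat, complexConjugation_sq, one_zpow]
  · right
    apply Subtype.ext
    show complexConjugation ^ (2 * m + 1) = complexConjugation
    rw [zpow_add, zpow_mul, zpow_ofNat, complexConjugation_sq, one_zpow, one_mul, zpow_one]

lemma arch_gen_mul_self : (archimedeanGen * archimedeanGen : archimedeanDecomposition) = 1 := by
  apply Subtype.ext
  exact complexConjugation_mul_self

lemma arch_two_ne_zero (hp2 : p ≠ 2) : (2 : ZMod p) ≠ 0 := by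
  intro h
  have h2 : ((2 : ℕ) : ZMod p) = 0 := by exact_mod_cast h
  rw [ZMod.natCast_eq_zero_iff] at h2
  have hp : p.Prime := Fact.out
  exact hp2 ((Nat.prime_dvd_prime_iff_eq hp Nat.prime_two).1 h2)

theorem H1_arch_eq_zero (hp2 : p ≠ 2) (A : Rep (ZMod p) GQ) (x : H1 (Rep.res archimedeanLoc A)) :
    x = 0 := by
  induction x using H1_induction_on with
  | h f =>
  rw [H1π_eq_zero_iff]
  have h2 : (2 : ZMod p) ≠ 0 := arch_two_ne_zero hp2
  have hf := (mem_cocycles₁_iff (f : archimedeanDecomposition → (Rep.res archimedeanLoc A))).1 f.2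
  have hf1 : f 1 = 0 := cocycles₁_map_one f
  set c : archimedeanDecomposition := archimedeanGen with hc
  have hcc : (Rep.res archimedeanLoc A).ρ c (f c) = - f c := by
    have := hf c c
    rw [arch_gen_mul_self, hf1] at this
    exact (eq_neg_of_add_eq_zero_left this.symm)
  refine ⟨(-(2 : ZMod p)⁻¹) • f c, ?_⟩
  funext g
  rw [d₀₁_hom_apply]
  rcases arch_eq_one_or g with rfl | rfl
  · rw [hf1]; simp
  · rw [map_smul, hcc, ← hc]
    rw [neg_smul, neg_smul, smul_neg, neg_neg, sub_neg_eq_add, ← add_smul, ← two_mul,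
      mul_inv_cancel₀ h2, one_smul]

/-- the level-constant `H²` of the archimedean decomposition group vanishes for `p` odd -/
theorem arch_continuousH2_eq_zero (hp2 : p ≠ 2) (A : Rep (ZMod p) GQ)
    (y : continuousH2 archimedeanLoc (Rep.res archimedeanLoc A)) : y = 0 := by
  obtain ⟨f, rfl⟩ := Submodule.Quotient.mk_surjective _ y
  have h2 : (2 : ZMod p) ≠ 0 := arch_two_ne_zero hp2
  change continuousH2π archimedeanLoc (Rep.res archimedeanLoc A) f = 0
  rw [continuousH2π_eq_zero_iff, mem_levelCoboundaries₂_iff]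
  obtain ⟨hcoc, F, hF, hlc⟩ := f.2
  set c : archimedeanDecomposition := archimedeanGen with hc
  set φ : archimedeanDecomposition × archimedeanDecomposition → (Rep.res archimedeanLoc A) :=
    (f : archimedeanDecomposition × archimedeanDecomposition → (Rep.res archimedeanLoc A)) with hφ
  have hcoc' := (mem_cocycles₂_iff φ).1 hcoc
  refine ⟨fun g => (2 : ZMod p)⁻¹ • (φ (g, 1) + φ (g, c)), ⟨F, hF, fun g s hs => ?_⟩, ?_⟩
  · have e1 := hlc g 1 s 1 hs (by rw [map_one]; exact Subgroup.one_mem _)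
    have e2 := hlc g c s 1 hs (by rw [map_one]; exact Subgroup.one_mem _)
    rw [mul_one] at e1 e2
    show (2 : ZMod p)⁻¹ • (φ (g * s, 1) + φ (g * s, c)) = (2 : ZMod p)⁻¹ • (φ (g, 1) + φ (g, c))
    rw [e1, e2]
  · funext ⟨g, h⟩
    rw [d₁₂_hom_apply]
    show (Rep.res archimedeanLoc A).ρ g ((2 : ZMod p)⁻¹ • (φ (h, 1) + φ (h, c)))
        - (2 : ZMod p)⁻¹ • (φ (g * h, 1) + φ (g * h, c))
        + (2 : ZMod p)⁻¹ • (φ (g, 1) + φ (g, c)) = φ (g, h)
    have k1 := hcoc' g h 1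
    have k2 := hcoc' g h c
    rw [mul_one] at k1
    have k1' : (Rep.res archimedeanLoc A).ρ g (φ (h, 1)) = φ (g * h, 1) := (add_right_cancel k1).symm
    have k2' : (Rep.res archimedeanLoc A).ρ g (φ (h, c)) = φ (g * h, c) + φ (g, h) - φ (g, h * c) :=
      eq_sub_of_add_eq k2.symm
    rw [map_smul, map_add, k1', k2', ← smul_sub, ← smul_add]
    have key : φ (g * h, 1) + (φ (g * h, c) + φ (g, h) - φ (g, h * c)) - (φ (g * h, 1) + φ (g * h, c))
        + (φ (g, 1) + φ (g, c)) = (2 : ZMod p) • φ (g, h) := by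
      rcases arch_eq_one_or h with rfl | rfl
      · rw [one_mul, two_smul]; abel
      · rw [← hc, show c * c = 1 from arch_gen_mul_self, two_smul]; abel
    rw [key, smul_smul, inv_mul_cancel₀ h2, one_smul]

theorem locRes₂S_arch_eq_zero (hp2 : p ≠ 2) (S : Finset Nat.Primes) (M : Rep (ZMod p) GQ)
    (x : continuousH2S S M) : locRes₂S S M archimedeanLoc x = 0 := by
  exact arch_continuousH2_eq_zero hp2 M _

theorem mem_sha₂_iff (hp2 : p ≠ 2) (S : Finset Nat.Primes) (M : Rep (ZMod p) GQ)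
    (x : continuousH2S S M) :
    x ∈ sha₂ S M ↔ ∀ q : ↥S, locRes₂S S M (primeLocalToGlobal q.1) x = 0 := by
  rw [sha₂, LinearMap.mem_ker]
  constructor
  · intro h q
    have := congrFun h (Sum.inr q)
    exact this
  · intro h
    funext v
    rcases v with v | q
    · exact locRes₂S_arch_eq_zero hp2 S M x
    · exact h q

theorem mem_sha₁_iff (hp2 : p ≠ 2) (S : Finset Nat.Primes) (A : Rep (ZMod p) GQ) (x : H1 A) :
    x ∈ sha₁ S A ↔ x ∈ continuousH1S S A ∧
      ∀ q : ↥S, (locRes (extArithLoc S) A (Sum.inr q)).hom x = 0 := by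
  rw [sha₁, Submodule.mem_inf, LinearMap.mem_ker]
  refine and_congr_right fun _ => ?_
  constructor
  · intro h q
    have := congrFun h (Sum.inr q)
    exact this
  · intro h
    funext v
    rcases v with v | q
    · exact H1_arch_eq_zero hp2 A _
    · exact h q

end Fermat.Agent.F4
end MergeWrap_F4_BR_Arch

section MergeWrap_F4_PT_BridgeH1 -- from F4/PT/BridgeH1.lean

/-!
# F4 / PT / BridgeH1 : the smooth `H¹` and the Prelude's `continuousH1S`, `sha₁`  (seat PT-BR)

* `ptbrH1 𝓤 A : H1sm 𝓤 A →ₗ H1 A`, injective;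
* `ptbrE1 S M : H1sm (levelsS S) M ≃ₗ continuousH1S S M`;
* `ptbr_locRes_H1` : compatibility with the localisation maps;
* `ptbr_E1_mem_sha₁_iff` : `ptbrE1 x ∈ sha₁ S M ↔ x ∈ sha1sm S M` (`p` odd).
-/

set_option autoImplicit false

open CategoryTheory Module groupCohomology ExtCitation

namespace Fermat.Agent.F4

section General

variable {k : Type} [CommRing k] {G : Type} [Group G] (𝓤 : Levels G) (A : Rep.{0} k G)

/-- the class of a smooth cocycle in Mathlib's `H¹`. -/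
noncomputable def ptbrZ1ToH1 : ↥(Z1 𝓤 A) →ₗ[k] H1 A :=
  (H1π A).hom ∘ₗ Submodule.inclusion (inf_le_left : Z1 𝓤 A ≤ cocycles₁ A)

theorem ptbrZ1ToH1_apply (z : ↥(Z1 𝓤 A)) :
    ptbrZ1ToH1 𝓤 A z = (H1π A).hom ⟨(z : G → A), z.2.1⟩ := rfl

theorem ptbr_ker_Z1ToH1 : LinearMap.ker (ptbrZ1ToH1 𝓤 A) = (B1 A).comap (Z1 𝓤 A).subtype := by
  ext z
  rw [LinearMap.mem_ker, ptbrZ1ToH1_apply, Submodule.mem_comap]
  exact H1π_eq_zero_iff (A := A) ⟨(z : G → A), z.2.1⟩

/-- smooth `H¹` maps to Mathlib's `H¹`. -/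
noncomputable def ptbrH1 : H1sm 𝓤 A →ₗ[k] H1 A :=
  Submodule.liftQ _ (ptbrZ1ToH1 𝓤 A) (ptbr_ker_Z1ToH1 𝓤 A).ge

@[simp]
theorem ptbrH1_mk (z : ↥(Z1 𝓤 A)) :
    ptbrH1 𝓤 A (Submodule.Quotient.mk z) = (H1π A).hom ⟨(z : G → A), z.2.1⟩ := rfl

theorem ptbrH1_injective : Function.Injective (ptbrH1 𝓤 A) := by
  rw [← LinearMap.ker_eq_bot, ptbrH1, Submodule.ker_liftQ, ptbr_ker_Z1ToH1]
  exact Submodule.mkQ_map_self _

end General

section Global

variable {k : Type} [CommRing k] (S : Finset Nat.Primes) (M : Rep.{0} k GQ)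

theorem ptbr_range_H1 : LinearMap.range (ptbrH1 (levelsS S) M) = continuousH1S S M := by
  ext x
  rw [mem_continuousH1S_iff_Z1, LinearMap.mem_range]
  constructor
  · rintro ⟨y, rfl⟩
    obtain ⟨z, rfl⟩ := Submodule.Quotient.mk_surjective _ y
    exact ⟨(z : GQ → M), z.2, rfl⟩
  · rintro ⟨c, hc, rfl⟩
    exact ⟨Submodule.Quotient.mk ⟨c, hc⟩, rfl⟩

/-- smooth `H¹` for the `S`-levels is the Prelude's `continuousH1S`. -/
noncomputable def ptbrE1 : H1sm (levelsS S) M ≃ₗ[k] ↥(continuousH1S S M) :=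
  (LinearEquiv.ofInjective (ptbrH1 (levelsS S) M) (ptbrH1_injective _ _)).trans
    (LinearEquiv.ofEq _ _ (ptbr_range_H1 S M))

@[simp]
theorem coe_ptbrE1 (x : H1sm (levelsS S) M) :
    ((ptbrE1 S M x : ↥(continuousH1S S M)) : H1 M) = ptbrH1 (levelsS S) M x := rfl

end Global

section Compat

variable {p : ℕ} [Fact p.Prime] (S : Finset Nat.Primes) (M : Rep.{0} (ZMod p) GQ)

/-- the localisation maps agree. -/
theorem ptbr_locRes_H1 (q : ↥S) (x : H1sm (levelsS S) M) :
    (locRes (extArithLoc S) M (Sum.inr q)).hom (ptbrH1 (levelsS S) M x)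
      = ptbrH1 (locLevelsS S q.1) (Rep.res (primeLocalToGlobal q.1) M) (locSm1 S M q.1 x) := by
  obtain ⟨z, rfl⟩ := Submodule.Quotient.mk_surjective _ x
  rw [ptbrH1_mk]
  show (groupCohomology.map (primeLocalToGlobal q.1) (𝟙 (Rep.res (primeLocalToGlobal q.1) M)) 1).hom
      ((H1π M).hom ⟨(z : GQ → M), z.2.1⟩) = _
  rw [← LinearMap.comp_apply, ← ModuleCat.hom_comp, H1π_comp_map]
  rfl

theorem ptbr_E1_mem_sha₁_iff (hp2 : p ≠ 2) (x : H1sm (levelsS S) M) :
    ((ptbrE1 S M x : ↥(continuousH1S S M)) : H1 M) ∈ sha₁ S M ↔ x ∈ sha1sm S M := by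
  rw [mem_sha₁_iff hp2, sha1sm, LinearMap.mem_ker, coe_ptbrE1]
  constructor
  · rintro ⟨-, h⟩
    funext q
    have := h q
    rw [ptbr_locRes_H1] at this
    exact ptbrH1_injective _ _ (this.trans (map_zero _).symm)
  · intro h
    refine ⟨(ptbrE1 S M x).2, fun q => ?_⟩
    rw [ptbr_locRes_H1]
    have hq : locSm1 S M q.1 x = 0 := congrFun h q
    rw [hq]
    exact map_zero _

end Compat

end Fermat.Agent.F4
end MergeWrap_F4_PT_BridgeH1

section MergeWrap_F4_PT_BridgeH2 -- from F4/PT/BridgeH2.lean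

/-!
# F4 / PT / BridgeH2 : the smooth `H²` and the Prelude's `continuousH2S`, `sha₂`  (seat PT-BR)

* `ptbrQuotEquiv` : the quotient `Z/B` only depends on the submodules `Z`, `B`;
* `ptbrE2 S M : H2sm (levelsS S) M ≃ₗ continuousH2S S M`;
* `ptbrE2loc r A : H2sm (levelsAll.comap r) A ≃ₗ continuousH2 r A`;
* `ptbr_locRes₂S_E2` : compatibility with the localisation maps;
* `ptbr_E2_mem_sha₂_iff` : `ptbrE2 x ∈ sha₂ S M ↔ x ∈ sha2sm S M` (`p` odd).
-/

set_option autoImplicit false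

open CategoryTheory Module groupCohomology ExtCitation

namespace Fermat.Agent.F4

section Generic

variable {k V : Type*} [CommRing k] [AddCommGroup V] [Module k V]

/-- The quotient `Z/(B ∩ Z)` depends only on the submodules. -/
def ptbrQuotEquiv {Z Z' B B' : Submodule k V} (hZ : Z = Z') (hB : B = B') :
    (↥Z ⧸ B.comap Z.subtype) ≃ₗ[k] (↥Z' ⧸ B'.comap Z'.subtype) :=
  Submodule.Quotient.equiv _ _ (LinearEquiv.ofEq Z Z' hZ) (by
    subst hZ hB
    ext x
    simp)

@[simp]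
theorem ptbrQuotEquiv_mk {Z Z' B B' : Submodule k V} (hZ : Z = Z') (hB : B = B') (z : ↥Z) :
    ptbrQuotEquiv hZ hB (Submodule.Quotient.mk z)
      = Submodule.Quotient.mk (⟨(z : V), hZ ▸ z.2⟩ : ↥Z') := rfl

end Generic

section Global

variable {k : Type} [CommRing k] (S : Finset Nat.Primes) (M : Rep.{0} k GQ)

/-- smooth `H²` for the `S`-levels is the Prelude's `continuousH2S`. -/
noncomputable def ptbrE2 : H2sm (levelsS S) M ≃ₗ[k] continuousH2S S M :=
  ptbrQuotEquiv (Z2_levelsS_eq S M) (B2_levelsS_eq S M)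

theorem ptbrE2_mk (z : ↥(Z2 (levelsS S) M)) :
    ptbrE2 S M (Submodule.Quotient.mk z)
      = continuousH2Sπ S M ⟨(z : GQ × GQ → M), Z2_levelsS_eq S M ▸ z.2⟩ := rfl

end Global

section Local

variable {k : Type} [CommRing k] {H : Type} [Group H] (r : H →* GQ) (A : Rep.{0} k H)

theorem ptbr_lc₁_comap_eq : lc₁ (levelsAll.comap r) A = levelCochains₁ r A := by
  ext f
  exact isLC₁_levelsAll_comap_iff r f

theorem ptbr_lc₂_comap_eq : lc₂ (levelsAll.comap r) A = levelCochains₂ r A := by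
  ext f
  exact isLC₂_levelsAll_comap_iff r f

theorem ptbr_Z2_comap_eq : Z2 (levelsAll.comap r) A = levelCocycles₂ r A := by
  rw [Z2, levelCocycles₂, ptbr_lc₂_comap_eq]

theorem ptbr_B2_comap_eq : B2 (levelsAll.comap r) A = levelCoboundaries₂ r A := by
  rw [B2, levelCoboundaries₂, ptbr_lc₁_comap_eq]

/-- smooth `H²` for all levels of a local group is the Prelude's `continuousH2`. -/
noncomputable def ptbrE2loc : H2sm (levelsAll.comap r) A ≃ₗ[k] continuousH2 r A :=
  ptbrQuotEquiv (ptbr_Z2_comap_eq r A) (ptbr_B2_comap_eq r A)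

theorem ptbrE2loc_mk (z : ↥(Z2 (levelsAll.comap r) A)) :
    ptbrE2loc r A (Submodule.Quotient.mk z)
      = continuousH2π r A ⟨(z : H × H → A), ptbr_Z2_comap_eq r A ▸ z.2⟩ := rfl

end Local

section Compat

variable {p : ℕ} [Fact p.Prime] (S : Finset Nat.Primes) (M : Rep.{0} (ZMod p) GQ)

/-- the localisation maps agree. -/
theorem ptbr_locRes₂S_E2 (q : Nat.Primes) (x : H2sm (levelsS S) M) :
    locRes₂S S M (primeLocalToGlobal q) (ptbrE2 S M x)
      = ptbrE2loc (primeLocalToGlobal q) (Rep.res (primeLocalToGlobal q) M) (locSm2 S M q x) := by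
  obtain ⟨z, rfl⟩ := Submodule.Quotient.mk_surjective _ x
  rfl

theorem ptbr_E2_mem_sha₂_iff (hp2 : p ≠ 2) (x : H2sm (levelsS S) M) :
    ptbrE2 S M x ∈ sha₂ S M ↔ x ∈ sha2sm S M := by
  rw [mem_sha₂_iff hp2, sha2sm, Submodule.mem_iInf]
  refine forall_congr' fun q => ?_
  rw [ptbr_locRes₂S_E2, LinearMap.mem_ker, LinearEquiv.map_eq_zero_iff]

end Compat

end Fermat.Agent.F4
end MergeWrap_F4_PT_BridgeH2

section MergeWrap_F4_PT_Bridge -- from F4/PT/Bridge.lean

/-!
# F4 / PT / Bridge : from the smooth model to the Prelude's `sha₁`, `sha₂`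

Owner: seat PT-BR (helper25).
* `H2sm (levelsS S) M ≃ continuousH2S S M` (`ptbrE2`, equal submodules by `Z2_levelsS_eq`,
  `B2_levelsS_eq`), carrying `sha2sm S M` to `sha₂ S M` (`mem_sha₂_iff`: the archimedean place is
  invisible; `isLC₁_levelsAll_comap_iff`: the local `H²` of the Prelude is `H2sm (locLevelsAll q)`);
* `H1sm (levelsS S) M' ≃ continuousH1S S M'` (`ptbrE1`) carrying `sha1sm` to `sha₁` (`mem_sha₁_iff`;
  a smooth local class vanishes in `H1sm` iff it vanishes in the abstract `H1`);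
* `exists_dualTwistEquiv` : `M ≃ Hom(M.dualTwist χ, 𝔽_p(χ))`, equivariant.
-/

set_option autoImplicit false
set_option linter.unusedVariables false

open CategoryTheory Module groupCohomology ExtCitation

namespace Fermat.Agent.F4

variable {p : ℕ} [Fact p.Prime]

section Pieces

variable (S : Finset Nat.Primes) (M M' : Rep.{0} (ZMod p) GQ)

theorem ptbr_ker_loc (hp2 : p ≠ 2) :
    LinearMap.ker (locSm1Total S M' ∘ₗ (ptbrE1 S M').symm.toLinearMap)
      = (sha₁ S M').comap (continuousH1S S M').subtype := by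
  ext x
  rw [LinearMap.mem_ker, Submodule.mem_comap, Submodule.subtype_apply, LinearMap.comp_apply,
    LinearEquiv.coe_coe]
  have h := ptbr_E1_mem_sha₁_iff S M' hp2 ((ptbrE1 S M').symm x)
  rw [LinearEquiv.apply_symm_apply] at h
  rw [h, sha1sm, LinearMap.mem_ker]

theorem ptbr_range_delta (hp2 : p ≠ 2) {X : Type} [AddCommGroup X] [Module (ZMod p) X]
    (δ : X →ₗ[ZMod p] H2sm (levelsS S) M) (hδ : LinearMap.range δ = sha2sm S M) :
    LinearMap.range ((ptbrE2 S M).toLinearMap ∘ₗ δ) = sha₂ S M := by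
  ext y
  constructor
  · rintro ⟨x, rfl⟩
    rw [LinearMap.comp_apply, LinearEquiv.coe_coe, ptbr_E2_mem_sha₂_iff S M hp2, ← hδ]
    exact ⟨x, rfl⟩
  · intro hy
    obtain ⟨z, rfl⟩ := (ptbrE2 S M).surjective y
    rw [ptbr_E2_mem_sha₂_iff S M hp2, ← hδ] at hy
    obtain ⟨x, rfl⟩ := hy
    exact ⟨x, rfl⟩

theorem ptbr_ker_delta {X : Type} [AddCommGroup X] [Module (ZMod p) X]
    (δ : X →ₗ[ZMod p] H2sm (levelsS S) M) :
    LinearMap.ker ((ptbrE2 S M).toLinearMap ∘ₗ δ) = LinearMap.ker δ := by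
  ext x
  simp only [LinearMap.mem_ker, LinearMap.comp_apply, LinearEquiv.coe_coe,
    LinearEquiv.map_eq_zero_iff]

theorem ptbr_alpha_bijective {X : Type} [AddCommGroup X] [Module (ZMod p) X]
    (α : X →ₗ[ZMod p] Dual (ZMod p) (H1sm (levelsS S) M')) (hα : Function.Bijective α) :
    Function.Bijective ((ptbrE1 S M').symm.toLinearMap.dualMap ∘ₗ α) := by
  have h1 : Function.Bijective ((ptbrE1 S M').symm.toLinearMap.dualMap) :=
    (LinearEquiv.dualMap (ptbrE1 S M').symm).bijective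
  exact h1.comp hα

theorem ptbr_compat {X P1 : Type} [AddCommGroup X] [Module (ZMod p) X] [AddCommGroup P1]
    [Module (ZMod p) P1] (β : P1 →ₗ[ZMod p] X)
    (α : X →ₗ[ZMod p] Dual (ZMod p) (H1sm (levelsS S) M'))
    (ι : P1 →ₗ[ZMod p]
      Dual (ZMod p) ((q : ↥S) → H1sm (locLevelsS S q.1) (Rep.res (primeLocalToGlobal q.1) M')))
    (h : α ∘ₗ β = (locSm1Total S M').dualMap ∘ₗ ι) :
    ((ptbrE1 S M').symm.toLinearMap.dualMap ∘ₗ α) ∘ₗ β
      = (locSm1Total S M' ∘ₗ (ptbrE1 S M').symm.toLinearMap).dualMap ∘ₗ ι := by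
  ext x y
  have h' := congrArg (fun f => f x ((ptbrE1 S M').symm y)) h
  simpa using h'

end Pieces

theorem nonempty_PTSegment_of_Sm (hp2 : p ≠ 2) (S : Finset Nat.Primes)
    (M M' : Rep (ZMod p) GQ) (hM : IsSmooth (levelsS S) M) (hM' : IsSmooth (levelsS S) M')
    (P : PTSegmentSm S M M') : Nonempty (PTSegment S M M') := by
  let _ := P.instX
  let _ := P.modX
  let _ := P.instP1
  let _ := P.modP1
  have hfin : Module.Finite (ZMod p) (H1sm (levelsS S) M') := P.finite_H1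
  exact ⟨@PTSegment.mk p _ S M M' P.X P.P1
    ((q : ↥S) → H1sm (locLevelsS S q.1) (Rep.res (primeLocalToGlobal q.1) M'))
    P.instX P.modX P.instP1 P.modP1
    (inferInstance : AddCommGroup
      ((q : ↥S) → H1sm (locLevelsS S q.1) (Rep.res (primeLocalToGlobal q.1) M')))
    (inferInstance : Module (ZMod p)
      ((q : ↥S) → H1sm (locLevelsS S q.1) (Rep.res (primeLocalToGlobal q.1) M')))
    P.β ((ptbrE2 S M).toLinearMap ∘ₗ P.δ) ((ptbrE1 S M').symm.toLinearMap.dualMap ∘ₗ P.α)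
    (locSm1Total S M' ∘ₗ (ptbrE1 S M').symm.toLinearMap) P.ι
    (Module.Finite.equiv (ptbrE1 S M'))
    (P.exact_X.trans (ptbr_ker_delta S M P.δ).symm)
    (ptbr_range_delta S M hp2 P.δ P.exact_H2)
    (ptbr_alpha_bijective S M' P.α P.α_bijective)
    (ptbr_ker_loc S M' hp2)
    P.ι_surjective
    (ptbr_compat S M' P.β P.α P.ι P.compat)⟩

/-- `M ≃ Hom(M', 𝔽_p(1))` for `M' = M.dualTwist (cycloChar p)`, `m ↦ (f ↦ f m)`. -/
theorem exists_dualTwistEquiv (M : Rep (ZMod p) GQ) [FiniteDimensional (ZMod p) M] :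
    ∃ θ : M ≃ₗ[ZMod p] (M.dualTwist (cycloChar p) →ₗ[ZMod p] Fp1 p),
      ∀ (g : GQ) (m : M) (m' : M.dualTwist (cycloChar p)),
        θ (M.ρ g m) m' = (Fp1 p).ρ g (θ m ((M.dualTwist (cycloChar p)).ρ g⁻¹ m')) := by
  refine ⟨Module.evalEquiv (ZMod p) M, fun g m m' => ?_⟩
  have h1 : ∀ (x : M) (f : Module.Dual (ZMod p) M), (Module.evalEquiv (ZMod p) M x) f = f x :=
    fun x f => rfl
  have h2 : (M.dualTwist (cycloChar p)).ρ g⁻¹ m'
      = ((cycloChar p g⁻¹ : (ZMod p)ˣ) : ZMod p) • ((m' : Module.Dual (ZMod p) M) ∘ₗ M.ρ g⁻¹⁻¹) :=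
    Rep.dualTwist_ρ_apply M (cycloChar p) g⁻¹ m'
  rw [br_smooth_Fp1_ρ]
  erw [h1, h2, h1]
  rw [inv_inv]
  erw [LinearMap.smul_apply, LinearMap.comp_apply]
  rw [smul_smul, ← Units.val_mul, ← map_mul, mul_inv_cancel, map_one, Units.val_one, one_smul]

end Fermat.Agent.F4
end MergeWrap_F4_PT_Bridge
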